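import Fermat.Agent.SelbergClass.Reflect
import Fermat.Agent.DegreeGap.Gamma
import Fermat.Agent.Tau.SiegelBound
import Fermat.Agent.Root.SummaryPolyaVinogradov

/-!
# The root number, and the order of a primitive L-function
-/

set_option autoImplicit false

noncomputable section

open Complex
open scoped Real
open DirichletCharacter (LFunction rootNumber completedLFunction)
open FA.DegreeGap (exists_norm_inv_Gamma_le Gamma_le_rpow)
open FA.SelbergClass (parity parity_nonneg gammaFactor_eq rootConst inv_even_iff)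

namespace FA.SelbergStructure

variable {f : ℕ} [NeZero f] {χ : DirichletCharacter ℂ f}

theorem norm_rootNumber (hχ : χ.IsPrimitive) : ‖rootNumber χ‖ = 1 := by
  rcases eq_or_ne f 1 with rfl | hf
  · rw [DirichletCharacter.rootNumber_modOne, norm_one]
  have hf0 : 0 < f := Nat.pos_of_ne_zero (NeZero.ne f)
  rw [DirichletCharacter.rootNumber, norm_div, norm_div, norm_pow, Complex.norm_I, one_pow, div_one,
    FA.OrderTheta.norm_gaussSum_primitive (by omega) hχ, norm_natCast_cpow_of_pos hf0,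
    show (1 / 2 : ℂ).re = 1 / 2 by norm_num, ← Real.sqrt_eq_rpow, div_self]
  exact (Real.sqrt_pos.2 (Nat.cast_pos.2 hf0)).ne'

theorem norm_rootConst (hχ : χ.IsPrimitive) (θ : ℝ) : ‖rootConst χ θ‖ = 1 := by
  rw [rootConst, norm_mul, norm_mul, norm_rootNumber hχ, Complex.norm_exp_ofReal_mul_I,
    norm_natCast_cpow_of_pos (Nat.pos_of_ne_zero (NeZero.ne f))]
  simp

theorem norm_Gammaℝ (w : ℂ) :
    ‖Gammaℝ w‖ = π ^ (-(w.re / 2)) * ‖Complex.Gamma (w / 2)‖ := by
  rw [Gammaℝ_def, norm_mul, norm_cpow_eq_rpow_re_of_pos Real.pi_pos, neg_div, Complex.neg_re,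
    Complex.div_ofNat_re]

theorem norm_Gammaℝ_le {w : ℂ} {R : ℝ} (hw : 3 / 4 ≤ w.re) (hR : ‖w‖ ≤ 2 * R) (hR1 : 1 ≤ R) :
    ‖Gammaℝ w‖ ≤ 6 * Real.exp (6 * R ^ 2) := by
  rw [norm_Gammaℝ]
  refine (mul_le_of_le_one_left (norm_nonneg _) (Real.rpow_le_one_of_one_le_of_nonpos
    (by linarith [Real.pi_gt_three]) (by linarith))).trans ?_
  refine (HeckeBS.norm_Gamma_le_re (by simp; linarith)).trans ?_
  rw [Complex.div_ofNat_re]
  set x := w.re / 2 with hx
  have hx0 : 3 / 8 ≤ x := by linarith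
  have hxR : x ≤ R := by linarith [Complex.re_le_norm w]
  calc Real.Gamma x = Real.Gamma (x + 1) / x := by
        rw [Real.Gamma_add_one (by linarith), mul_div_cancel_left₀ _ (by linarith)]
    _ ≤ 3 * (2 * (x + 1 + 1) ^ (x + 1)) := by
        rw [div_le_iff₀ (by linarith)]
        refine (Gamma_le_rpow (by linarith)).trans ?_
        nlinarith [Real.rpow_nonneg (show (0 : ℝ) ≤ x + 1 + 1 by linarith) (x + 1)]
    _ ≤ 3 * (2 * Real.exp (6 * R ^ 2)) := by
        rw [Real.rpow_def_of_pos (by linarith)]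
        refine mul_le_mul_of_nonneg_left (mul_le_mul_of_nonneg_left (Real.exp_le_exp.2 ?_)
          zero_le_two) (by norm_num)
        calc Real.log (x + 1 + 1) * (x + 1) ≤ (x + 1 + 1) * (x + 1) :=
              mul_le_mul_of_nonneg_right (Real.log_le_self (by linarith)) (by linarith)
          _ ≤ 6 * R ^ 2 := by nlinarith
    _ = _ := by ring

theorem exists_norm_inv_Gammaℝ_le : ∃ C : ℝ, 0 ≤ C ∧ ∀ (w : ℂ) (R : ℝ), ‖w‖ ≤ 2 * R → 1 ≤ R →
    ‖(Gammaℝ w)⁻¹‖ ≤ C * Real.exp (16 * R ^ 2) := by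
  obtain ⟨C, hC0, hC⟩ := exists_norm_inv_Gamma_le
  refine ⟨C, hC0, fun w R hR hR1 => ?_⟩
  rw [norm_inv, norm_Gammaℝ, mul_inv, ← norm_inv, ← Real.rpow_neg Real.pi_pos.le, neg_neg]
  set u := w / 2
  have hu : ‖u‖ ≤ R := by simp [u]; linarith
  have hre := (Complex.abs_re_le_norm u).trans hu
  have him := (Complex.abs_im_le_norm u).trans hu
  refine (mul_le_mul_of_nonneg_left (hC u) (Real.rpow_nonneg Real.pi_pos.le _)).trans ?_
  rw [show w.re / 2 = u.re by simp [u], Real.rpow_def_of_pos Real.pi_pos,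
    Real.rpow_def_of_pos (by positivity : 0 < |u.re| + 2),
    show Real.exp (Real.log π * u.re) *
      (C * Real.exp (Real.log (|u.re| + 2) * (max (1 - u.re) 0 + 1)) * Real.exp (π * |u.im|)) =
      C * Real.exp (Real.log π * u.re + Real.log (|u.re| + 2) * (max (1 - u.re) 0 + 1) +
        π * |u.im|) by rw [Real.exp_add, Real.exp_add]; ring]
  refine mul_le_mul_of_nonneg_left (Real.exp_le_exp.2 ?_) hC0
  have h1 : Real.log π * u.re ≤ 3 * R := (mul_le_mul_of_nonneg_left ((le_abs_self _).trans hre)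
    (Real.log_nonneg (by linarith [Real.pi_gt_three]))).trans (mul_le_mul_of_nonneg_right
      ((Real.log_le_sub_one_of_pos Real.pi_pos).trans (by linarith [Real.pi_lt_four]))
      (by linarith))
  have hmax : max (1 - u.re) 0 + 1 ≤ R + 2 := by
    have : max (1 - u.re) 0 ≤ R + 1 :=
      max_le (by linarith [neg_le_abs u.re]) (by linarith)
    linarith
  have h2 : Real.log (|u.re| + 2) * (max (1 - u.re) 0 + 1) ≤ (R + 2) * (R + 2) :=
    mul_le_mul ((Real.log_le_self (by positivity)).trans (by linarith)) hmax (by positivity)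
      (by linarith)
  have h3 : π * |u.im| ≤ 4 * R := mul_le_mul Real.pi_lt_four.le him (abs_nonneg _) (by norm_num)
  nlinarith

theorem exists_norm_LFunction_exp_le (hχ : χ.IsPrimitive) (h1 : χ ≠ 1) :
    ∃ C : ℝ, ∀ s : ℂ, ‖LFunction χ s‖ ≤ C * Real.exp (C * (1 + ‖s‖) ^ 2) := by
  obtain ⟨C₁, hC₁0, hC₁⟩ := exists_norm_inv_Gammaℝ_le
  have hf : (1 : ℝ) ≤ f := Nat.one_le_cast.2 (Nat.pos_of_ne_zero (NeZero.ne f))
  have hf1 : f ≠ 1 := fun e => h1 (by subst e; exact DirichletCharacter.level_one χ)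
  set C := 12 * f * C₁ + 4 * f + 30
  refine ⟨C, fun s => ?_⟩
  have hC : 12 * f * C₁ ≤ C ∧ 4 * f ≤ C ∧ f + 23 ≤ C := by
    have : 0 ≤ 12 * f * C₁ := by positivity
    exact ⟨by simp only [C]; linarith, by simp only [C]; linarith, by simp only [C]; linarith⟩
  obtain ⟨R, hRdef⟩ : ∃ R, R = 1 + ‖s‖ := ⟨_, rfl⟩
  rw [← hRdef]
  have hR : 1 ≤ R := hRdef ▸ le_add_of_nonneg_right (norm_nonneg s)
  have hRe : R ≤ Real.exp R := by linarith [Real.add_one_le_exp R]
  have hR2 : R ≤ R ^ 2 := by nlinarith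
  have hC0 : 0 ≤ C := by linarith [hC.2.1]
  rcases le_or_gt (1 / 4) s.re with hs | hs
  · refine (FA.Siegel.norm_LFunction_le h1 (by linarith)).trans ?_
    calc ‖s‖ * ((f : ℝ) / s.re) ≤ R * (4 * f) := by
          refine mul_le_mul (by simp [hRdef]) ?_ (by positivity) (by linarith)
          rw [div_le_iff₀ (by linarith)]
          nlinarith
      _ ≤ Real.exp R * C := mul_le_mul hRe hC.2.1 (by positivity) (Real.exp_nonneg _)
      _ ≤ _ := by
          rw [mul_comm]
          refine mul_le_mul_of_nonneg_left (Real.exp_le_exp.2 ?_) hC0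
          nlinarith [hC.2.2]
  set z := 1 - s with hz
  have hz0 : 3 / 4 ≤ z.re := by simp [hz]; linarith
  have hzR : ‖z‖ ≤ R := by
    refine (norm_sub_le _ _).trans ?_
    simp [hRdef]
  have ha1 : parity χ ≤ 1 := by unfold parity; split_ifs <;> norm_num
  have ha0 := parity_nonneg χ
  have hG : DirichletCharacter.gammaFactor χ⁻¹ z = Gammaℝ (z + parity χ) := by
    rw [gammaFactor_eq, parity, parity]
    by_cases h : χ.Even <;> simp [h, inv_even_iff]
  have hGne : Gammaℝ (z + parity χ) ≠ 0 :=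
    Gammaℝ_ne_zero_of_re_pos (by simp; linarith)
  have hfe := hχ.completedLFunction_one_sub z
  rw [hz, sub_sub_cancel, ← hz] at hfe
  have hΛ : completedLFunction χ⁻¹ z = LFunction χ⁻¹ z * Gammaℝ (z + parity χ) := by
    rw [DirichletCharacter.LFunction_eq_completed_div_gammaFactor χ⁻¹ z (Or.inr hf1), hG,
      div_mul_cancel₀ _ hGne]
  rw [DirichletCharacter.LFunction_eq_completed_div_gammaFactor χ s (Or.inr hf1), hfe, hΛ,
    gammaFactor_eq, div_eq_mul_inv, norm_mul, norm_mul, norm_mul, norm_mul, norm_rootNumber hχ,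
    mul_one, norm_natCast_cpow_of_pos (Nat.pos_of_ne_zero (NeZero.ne f))]
  have ha : ‖(parity χ : ℂ)‖ ≤ 1 := by
    rwa [Complex.norm_real, Real.norm_of_nonneg ha0]
  have hN : (f : ℝ) ^ ((z - 1 / 2).re) ≤ Real.exp (f * R) := by
    rw [Real.rpow_def_of_pos (by linarith)]
    refine Real.exp_le_exp.2 (mul_le_mul (Real.log_le_self (by linarith)) ?_ ?_ (by linarith))
    · simp only [sub_re, show (1 / 2 : ℂ).re = 1 / 2 by norm_num]
      linarith [Complex.re_le_norm z]
    · simp only [sub_re, show (1 / 2 : ℂ).re = 1 / 2 by norm_num]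
      linarith
  have hL : ‖LFunction χ⁻¹ z‖ ≤ 2 * f * Real.exp R := by
    refine (FA.Siegel.norm_LFunction_le (inv_ne_one.2 h1) (by linarith)).trans ?_
    rw [show 2 * (f : ℝ) * Real.exp R = Real.exp R * (2 * f) by ring]
    refine mul_le_mul (hzR.trans hRe) ?_ (by positivity) (Real.exp_nonneg _)
    rw [div_le_iff₀ (by linarith)]
    nlinarith
  have hG1 := norm_Gammaℝ_le (w := z + parity χ) (R := R) (by simp; linarith)
    (by linarith [norm_add_le z (parity χ : ℂ)]) hR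
  have hG2 := hC₁ (s + parity χ) R (by
    linarith [norm_add_le s (parity χ : ℂ), show ‖s‖ = R - 1 by simp [hRdef]]) hR
  calc _ ≤ Real.exp (f * R) * (2 * f * Real.exp R * (6 * Real.exp (6 * R ^ 2))) *
        (C₁ * Real.exp (16 * R ^ 2)) := by gcongr
    _ = 12 * f * C₁ * Real.exp (f * R + R + 6 * R ^ 2 + 16 * R ^ 2) := by
        rw [Real.exp_add, Real.exp_add, Real.exp_add]
        ring
    _ ≤ _ := by
        refine mul_le_mul hC.1 (Real.exp_le_exp.2 ?_) (Real.exp_nonneg _) hC0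
        nlinarith [hC.2.2, mul_le_mul_of_nonneg_left hR2 (zero_le_one.trans hf),
          mul_le_mul_of_nonneg_right hC.2.2 (sq_nonneg R)]

theorem exists_shift_exp_le (hχ : χ.IsPrimitive) (h1 : χ ≠ 1) (θ : ℝ) :
    ∃ (A : ℕ) (C : ℝ), ∀ s : ℂ,
      ‖LFunction χ (s + θ * I)‖ ≤ C * Real.exp (C * (1 + ‖s‖) ^ A) := by
  obtain ⟨C, hC⟩ := exists_norm_LFunction_exp_le hχ h1
  have hC0 : 0 ≤ C := nonneg_of_mul_nonneg_left ((norm_nonneg _).trans (hC 0)) (Real.exp_pos _)
  refine ⟨2, C * (1 + |θ|) ^ 2, fun s => (hC _).trans ?_⟩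
  have hp : 1 ≤ (1 + |θ|) ^ 2 := one_le_pow₀ (le_add_of_nonneg_right (abs_nonneg θ))
  refine mul_le_mul (le_mul_of_one_le_right hC0 hp) (Real.exp_le_exp.2 ?_) (Real.exp_nonneg _)
    (by positivity)
  rw [mul_assoc, ← mul_pow]
  refine mul_le_mul_of_nonneg_left (pow_le_pow_left₀ (by positivity) ?_ 2) hC0
  have := norm_add_le s ((θ : ℂ) * I)
  simp at this
  nlinarith [norm_nonneg s, abs_nonneg θ]

end FA.SelbergStructure

end
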