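import Fermat.Agent.SelbergStructure.Factor
import Fermat.Agent.SelbergStructure.Growth
import Fermat.Agent.DegreeOne.Zeta

/-!
# The elements of degree one
-/

set_option autoImplicit false

noncomputable section

open Complex Filter Topology
open scoped Real ComplexConjugate
open FA.DegreeGap (HasFunctionalEquation degree gammaFactor)
open FA.SelbergClass (HasEulerProduct parity parity_nonneg rootConst lFunction_left_eq
  exists_primitive)
open FA.DegreeOne (conj_inv_eq twist)

namespace FA.SelbergStructure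

variable {q : ℕ} [NeZero q]

/-- The coefficients of `L (χ, s + iθ)`. -/
def shiftChar (χ : DirichletCharacter ℂ q) (θ : ℝ) (n : ℕ) : ℂ :=
  χ n * (n : ℂ) ^ (-((θ : ℂ) * I))

omit [NeZero q] in
theorem term_shiftChar (χ : DirichletCharacter ℂ q) (θ : ℝ) (s : ℂ) :
    LSeries.term (shiftChar χ θ) s = LSeries.term (fun n : ℕ => χ n) (s + θ * I) := by
  funext n
  rcases eq_or_ne n 0 with rfl | hn
  · simp
  rw [LSeries.term_of_ne_zero hn, LSeries.term_of_ne_zero hn, shiftChar,
    cpow_add _ _ (Nat.cast_ne_zero.2 hn), cpow_neg]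
  field_simp

omit [NeZero q] in
theorem lSeries_shiftChar (χ : DirichletCharacter ℂ q) (θ : ℝ) (s : ℂ) :
    LSeries (shiftChar χ θ) s = LSeries (fun n : ℕ => χ n) (s + θ * I) := by
  rw [LSeries, LSeries, term_shiftChar]

omit [NeZero q] in
theorem euler_shiftChar (χ : DirichletCharacter ℂ q) (θ : ℝ) :
    HasEulerProduct (shiftChar χ θ) := by
  refine ⟨by simp [shiftChar], fun k n _ => ?_, 0, by norm_num, fun p hp X hX => ?_⟩
  · simp only [shiftChar, Nat.cast_mul, map_mul, natCast_mul_natCast_cpow]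
    ring
  rw [neg_zero, Real.rpow_zero] at hX
  set c := shiftChar χ θ p
  have hc : ‖c * X‖ < 1 := by
    rw [norm_mul]
    refine lt_of_le_of_lt (mul_le_of_le_one_left (norm_nonneg X) ?_) hX
    simp only [c, shiftChar]
    rw [norm_mul, norm_natCast_cpow_of_pos hp.pos]
    simpa using DirichletCharacter.norm_le_one χ _
  have hpow : ∀ k, shiftChar χ θ (p ^ k) = c ^ k := fun k => by
    induction k with
    | zero => simp [shiftChar]
    | succ k ih =>
      rw [pow_succ c, ← ih]
      simp only [c, shiftChar, pow_succ p, Nat.cast_mul, map_mul, natCast_mul_natCast_cpow]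
      ring
  refine ⟨(1 - c * X)⁻¹, inv_ne_zero (sub_ne_zero.2 fun e => ?_), ?_⟩
  · rw [← e, norm_one] at hc
    exact lt_irrefl _ hc
  · simpa [hpow, mul_pow] using hasSum_geometric_of_norm_lt_one hc

theorem fe_shiftChar {χ : DirichletCharacter ℂ q} (hχ : χ.IsPrimitive) (h1 : χ ≠ 1) (θ : ℝ) :
    HasFunctionalEquation (shiftChar χ θ) 0 (fun s => χ.LFunction (s + θ * I))
      (fun _ : Fin 1 => (1 / 2 : ℝ)) (fun _ => ((parity χ : ℂ) + θ * I) / 2) (Real.sqrt (q / π))
      (rootConst χ θ) where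
  summable s hs := by
    rw [LSeriesSummable, term_shiftChar]
    exact DirichletCharacter.LSeriesSummable_of_one_lt_re χ (by simpa using hs)
  differentiable :=
    (DirichletCharacter.differentiable_LFunction h1).comp (differentiable_id.add_const _)
  eq_series s hs := by
    rw [pow_zero, one_mul, lSeries_shiftChar,
      DirichletCharacter.LFunction_eq_LSeries χ (by simpa using hs)]
  finite_order := exists_shift_exp_le hχ h1 θ
  lam_pos _ := by norm_num
  mu_re _ := by simp; linarith [parity_nonneg χ]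
  Q_pos := Real.sqrt_pos.2 (div_pos (Nat.cast_pos.2 (Nat.pos_of_ne_zero (NeZero.ne q))) Real.pi_pos)
  norm_omega := norm_rootConst hχ θ
  functional_equation s hs := by
    rw [lFunction_left_eq hχ θ hs, pow_zero, one_mul, map_mul, lSeries_shiftChar,
      ← conj_inv_eq (Real.sqrt_pos.2 (div_pos (Nat.cast_pos.2 (Nat.pos_of_ne_zero (NeZero.ne q)))
        Real.pi_pos))]
    ring

/-- **The shifted primitive L-functions have degree one.** -/
theorem hasDegree_shiftChar {χ : DirichletCharacter ℂ q} (hχ : χ.IsPrimitive) {θ : ℝ}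
    (hθ : q = 1 → θ = 0) : HasDegree (shiftChar χ θ) 1 := by
  refine ⟨euler_shiftChar χ θ, ?_⟩
  by_cases h1 : χ = 1
  · have hq : q = 1 :=
      hχ.symm.trans (DirichletCharacter.eq_one_iff_conductor_eq_one.1 h1)
    obtain rfl := hθ hq
    subst hq h1
    refine ⟨1, FA.DegreeOne.zetaEntire, 1, _, _, _, _,
      fe_congr FA.DegreeOne.zeta_hasFunctionalEquation fun n _ => ?_, FA.DegreeOne.zeta_degree⟩
    simp [shiftChar, MulChar.one_apply (isUnit_of_subsingleton _)]
  · exact ⟨0, _, 1, _, _, _, _, fe_shiftChar hχ h1 θ, by simp [degree]⟩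

omit [NeZero q] in
/-- The pole of the zeta function allows no shift. -/
theorem shift_eq_zero {E : ℂ → ℂ} (hE : Differentiable ℂ E) {m : ℕ} {θ : ℝ}
    (h : ∀ s : ℂ, s ≠ 1 - θ * I → E s = (s - 1) ^ m * riemannZeta (s + θ * I)) : θ = 0 := by
  by_contra hθ
  set s₀ : ℂ := 1 - θ * I
  have hmap : Tendsto (fun s : ℂ => s + θ * I) (𝓝[≠] s₀) (𝓝[≠] 1) := by
    refine tendsto_nhdsWithin_iff.2 ⟨((show Continuous fun s : ℂ => s + θ * I by fun_prop).tendsto'
      s₀ 1 (by simp [s₀])).mono_left nhdsWithin_le_nhds,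
      eventually_nhdsWithin_of_forall fun s hs e => hs ?_⟩
    simp only [Set.mem_singleton_iff, s₀] at e ⊢
    linear_combination e
  have h1 := (((show Continuous fun s : ℂ => (s - 1) ^ m by fun_prop).tendsto s₀).mono_left
    nhdsWithin_le_nhds).mul (riemannZeta_residue_one.comp hmap)
  have h2 : Tendsto (fun s : ℂ => (s + θ * I - 1) * E s) (𝓝[≠] s₀) (𝓝 0) :=
    (((show Continuous fun s : ℂ => s + θ * I - 1 by fun_prop).mul hE.continuous).tendsto' s₀ 0
      (by simp [s₀])).mono_left nhdsWithin_le_nhds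
  have h3 : Tendsto (fun s : ℂ => (s + θ * I - 1) * E s) (𝓝[≠] s₀)
      (𝓝 ((s₀ - 1) ^ m * 1)) := by
    refine h1.congr' (eventually_nhdsWithin_of_forall fun s hs => ?_)
    simp only [Function.comp_apply, h s hs]
    ring
  have := tendsto_nhds_unique h2 h3
  rw [mul_one] at this
  refine pow_ne_zero m ?_ this.symm
  simp [s₀, hθ]

/-- **The elements of degree one.** -/
theorem hasDegree_one_iff {a : ℕ → ℂ} : HasDegree a 1 ↔
    ∃ (q : ℕ) (_ : NeZero q) (χ : DirichletCharacter ℂ q) (θ : ℝ),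
      χ.IsPrimitive ∧ (q = 1 → θ = 0) ∧ ∀ n : ℕ, n ≠ 0 → a n = shiftChar χ θ n := by
  constructor
  · rintro ⟨he, m, E, r, lam, mu, Q, omega, hf, hd⟩
    obtain ⟨f, hf0, χ, hχ, -, ha, -, hE⟩ := exists_primitive hf he hd
    refine ⟨f, hf0, χ, twist mu, hχ, fun h1 => ?_, ha⟩
    subst h1
    refine shift_eq_zero hf.differentiable (m := m) fun s hs => ?_
    rw [hE s hs, DirichletCharacter.LFunction_modOne_eq]
  · rintro ⟨q, hq, χ, θ, hχ, hθ, ha⟩
    exact (hasDegree_shiftChar hχ hθ).congr fun n hn => (ha n hn).symm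

theorem isPrimitive_of_degree_one {a : ℕ → ℂ} (h : HasDegree a 1) : IsPrimitive a :=
  isPrimitive_of_lt_two h (fun ht => one_ne_zero (h.eq_zero_iff.2 ht)) one_lt_two

end FA.SelbergStructure

end
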