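import Fermat.Agent.SelbergStructure.Invariants
import Fermat.Agent.SelbergClass.Main
import Mathlib.NumberTheory.LSeries.Injectivity

/-!
# The class and its products
-/

set_option autoImplicit false

noncomputable section

open Complex Filter
open scoped Real ComplexConjugate LSeries.notation
open FA.DegreeGap (HasFunctionalEquation gammaFactor degree)
open FA.SelbergClass (HasEulerProduct LocalFactors)

namespace FA.SelbergStructure

variable {a b : ℕ → ℂ} {m m' : ℕ} {E E' : ℂ → ℂ} {r r' : ℕ} {lam : Fin r → ℝ} {mu : Fin r → ℂ}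
  {Q : ℝ} {omega : ℂ} {lam' : Fin r' → ℝ} {mu' : Fin r' → ℂ} {Q' : ℝ} {omega' : ℂ} {d e : ℝ}

/-- `a` is in the Selberg class, with degree `d`. -/
def HasDegree (a : ℕ → ℂ) (d : ℝ) : Prop :=
  HasEulerProduct a ∧ ∃ (m : ℕ) (E : ℂ → ℂ) (r : ℕ) (lam : Fin r → ℝ) (mu : Fin r → ℂ) (Q : ℝ)
    (omega : ℂ), HasFunctionalEquation a m E lam mu Q omega ∧ degree lam = d

/-- The series is `1`. -/
def IsTrivial (a : ℕ → ℂ) : Prop := ∀ n, 1 < n → a n = 0

theorem eq_one_of_trivial (h1 : a 1 = 1) (h : IsTrivial a) (s : ℂ) : LSeries a s = 1 := by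
  rw [LSeries, tsum_eq_single 1 fun n hn => ?_]
  · simp [LSeries.term_of_ne_zero, h1]
  · rcases eq_or_ne n 0 with rfl | hn0
    · simp
    rw [LSeries.term_of_ne_zero hn0, h n (by omega), zero_div]

theorem fe_trivial (h1 : a 1 = 1) (h : IsTrivial a) :
    HasFunctionalEquation a 0 (fun _ => 1) (Fin.elim0 : Fin 0 → ℝ) Fin.elim0 1 1 where
  summable s _ := summable_of_ne_finset_zero (s := Finset.range 2) fun n hn => by
    rw [Finset.mem_range] at hn
    rw [LSeries.term_of_ne_zero (by omega), h n (by omega), zero_div]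
  differentiable := differentiable_const 1
  eq_series s _ := by rw [eq_one_of_trivial h1 h, pow_zero, one_mul]
  finite_order := ⟨0, 1, fun s => by simp⟩
  lam_pos j := j.elim0
  mu_re j := j.elim0
  Q_pos := one_pos
  norm_omega := norm_one
  functional_equation s _ := by simp [gammaFactor, eq_one_of_trivial h1 h]

theorem fe_congr (h : HasFunctionalEquation a m E lam mu Q omega)
    (hab : ∀ n, n ≠ 0 → a n = b n) : HasFunctionalEquation b m E lam mu Q omega where
  summable s hs := (LSeriesSummable_congr s fun {n} hn => hab n hn).1 (h.summable s hs)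
  differentiable := h.differentiable
  eq_series s hs := by rw [h.eq_series s hs, LSeries_congr (fun {n} hn => hab n hn) s]
  finite_order := h.finite_order
  lam_pos := h.lam_pos
  mu_re := h.mu_re
  Q_pos := h.Q_pos
  norm_omega := h.norm_omega
  functional_equation s hs := by
    rw [h.functional_equation s hs, LSeries_congr (fun {n} hn => hab n hn) (1 - conj s)]

theorem euler_congr (h : HasEulerProduct a) (hab : ∀ n, n ≠ 0 → a n = b n) :
    HasEulerProduct b := by
  have h1 : b 1 = 1 := (hab 1 one_ne_zero).symm.trans h.map_one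
  refine ⟨h1, fun k n hkn => ?_, ?_⟩
  · rcases eq_or_ne k 0 with rfl | hk
    · rw [Nat.coprime_zero_left] at hkn
      simp [hkn, h1]
    rcases eq_or_ne n 0 with rfl | hn
    · rw [Nat.coprime_zero_right] at hkn
      simp [hkn, h1]
    rw [← hab _ (mul_ne_zero hk hn), ← hab k hk, ← hab n hn, h.map_mul k n hkn]
  · obtain ⟨θ, hθ, hl⟩ := h.local_factors
    refine ⟨θ, hθ, fun p hp X hX => ?_⟩
    obtain ⟨s, hs, hsum⟩ := hl p hp X hX
    exact ⟨s, hs, hsum.congr_fun fun k => by rw [hab _ (pow_ne_zero k hp.ne_zero)]⟩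

theorem HasDegree.congr (h : HasDegree a d) (hab : ∀ n, n ≠ 0 → a n = b n) : HasDegree b d := by
  obtain ⟨he, m, E, r, lam, mu, Q, omega, hf, hd⟩ := h
  exact ⟨euler_congr he hab, m, E, r, lam, mu, Q, omega, fe_congr hf hab, hd⟩

theorem HasDegree.map_one (h : HasDegree a d) : a 1 = 1 := h.1.map_one

theorem HasDegree.summable (h : HasDegree a d) {s : ℂ} (hs : 1 < s.re) : LSeriesSummable a s := by
  obtain ⟨-, m, E, r, lam, mu, Q, omega, hf, -⟩ := h
  exact hf.summable s hs

theorem HasDegree.nonneg (h : HasDegree a d) : 0 ≤ d := by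
  obtain ⟨-, m, E, r, lam, mu, Q, omega, hf, rfl⟩ := h
  exact FA.DegreeGap.degree_nonneg hf

theorem HasDegree.unique (h : HasDegree a d) (h' : HasDegree a e) : d = e := by
  obtain ⟨he, m, E, r, lam, mu, Q, omega, hf, rfl⟩ := h
  obtain ⟨-, m', E', r', lam', mu', Q', omega', hf', rfl⟩ := h'
  exact (invariants_eq hf hf' one_ne_zero (by rw [he.map_one]; exact one_ne_zero)).1

theorem HasDegree.eq_zero_iff (h : HasDegree a d) : d = 0 ↔ IsTrivial a := by
  refine ⟨fun hd => ?_, fun ht => ?_⟩
  · obtain ⟨he, m, E, r, lam, mu, Q, omega, hf, hd'⟩ := h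
    exact FA.SelbergClass.eq_zero_of_degree_zero hf he (hd'.trans hd)
  · refine h.unique ⟨h.1, _, _, _, _, _, _, _, fe_trivial h.map_one ht, ?_⟩
    simp [degree]

theorem HasDegree.one_le (h : HasDegree a d) (ht : ¬ IsTrivial a) : 1 ≤ d := by
  by_contra hlt
  rcases h.nonneg.eq_or_lt with h0 | h0
  · exact ht (h.eq_zero_iff.1 h0.symm)
  obtain ⟨he, m, E, r, lam, mu, Q, omega, hf, rfl⟩ := h
  have := hf.eq_zero_of_degree h0 (not_le.1 hlt) one_ne_zero
  rw [he.map_one] at this
  exact one_ne_zero this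

theorem gammaFactor_append (hQ : 0 < Q) (hQ' : 0 < Q') (w : ℂ) :
    gammaFactor (Fin.append lam lam') (Fin.append mu mu') (Q * Q') w =
      gammaFactor lam mu Q w * gammaFactor lam' mu' Q' w := by
  simp only [gammaFactor, Fin.prod_univ_add, Fin.append_left, Fin.append_right, ofReal_mul,
    mul_cpow_ofReal_nonneg hQ.le hQ'.le]
  ring

theorem finite_order_mul (h : ∃ (A : ℕ) (C : ℝ), ∀ s, ‖E s‖ ≤ C * Real.exp (C * (1 + ‖s‖) ^ A))
    (h' : ∃ (A : ℕ) (C : ℝ), ∀ s, ‖E' s‖ ≤ C * Real.exp (C * (1 + ‖s‖) ^ A)) :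
    ∃ (A : ℕ) (C : ℝ), ∀ s, ‖E s * E' s‖ ≤ C * Real.exp (C * (1 + ‖s‖) ^ A) := by
  obtain ⟨A, C, hC⟩ := h
  obtain ⟨A', C', hC'⟩ := h'
  have h0 : 0 ≤ C := nonneg_of_mul_nonneg_left ((norm_nonneg _).trans (hC 0)) (Real.exp_pos _)
  have h0' : 0 ≤ C' := nonneg_of_mul_nonneg_left ((norm_nonneg _).trans (hC' 0)) (Real.exp_pos _)
  refine ⟨max A A', max (C * C') (C + C'), fun s => ?_⟩
  have hR : 1 ≤ 1 + ‖s‖ := le_add_of_nonneg_right (norm_nonneg s)
  rw [norm_mul]
  refine (mul_le_mul (hC s) (hC' s) (norm_nonneg _) ((norm_nonneg _).trans (hC s))).trans ?_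
  rw [show C * Real.exp (C * (1 + ‖s‖) ^ A) * (C' * Real.exp (C' * (1 + ‖s‖) ^ A')) =
    C * C' * Real.exp (C * (1 + ‖s‖) ^ A + C' * (1 + ‖s‖) ^ A') by rw [Real.exp_add]; ring]
  refine mul_le_mul (le_max_left _ _) (Real.exp_le_exp.2 ?_) (Real.exp_nonneg _)
    (le_max_of_le_left (mul_nonneg h0 h0'))
  calc _ ≤ C * (1 + ‖s‖) ^ max A A' + C' * (1 + ‖s‖) ^ max A A' := add_le_add
        (mul_le_mul_of_nonneg_left (pow_le_pow_right₀ hR (le_max_left _ _)) h0)
        (mul_le_mul_of_nonneg_left (pow_le_pow_right₀ hR (le_max_right _ _)) h0')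
    _ = (C + C') * (1 + ‖s‖) ^ max A A' := by ring
    _ ≤ _ := mul_le_mul_of_nonneg_right (le_max_right _ _) (by positivity)

theorem fe_mul (h : HasFunctionalEquation a m E lam mu Q omega)
    (h' : HasFunctionalEquation b m' E' lam' mu' Q' omega') :
    HasFunctionalEquation (a ⍟ b) (m + m') (fun s => E s * E' s) (Fin.append lam lam')
      (Fin.append mu mu') (Q * Q') (omega * omega') where
  summable s hs := (h.summable s hs).convolution (h'.summable s hs)
  differentiable := h.differentiable.mul h'.differentiable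
  eq_series s hs := by
    simp only [LSeries_convolution' (h.summable s hs) (h'.summable s hs), h.eq_series s hs,
      h'.eq_series s hs, pow_add]
    ring
  finite_order := finite_order_mul h.finite_order h'.finite_order
  lam_pos := Fin.addCases (fun j => by simpa using h.lam_pos j) fun j => by simpa using h'.lam_pos j
  mu_re := Fin.addCases (fun j => by simpa using h.mu_re j) fun j => by simpa using h'.mu_re j
  Q_pos := mul_pos h.Q_pos h'.Q_pos
  norm_omega := by rw [norm_mul, h.norm_omega, h'.norm_omega, one_mul]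
  functional_equation s hs := by
    have hw : 1 < (1 - conj s).re := by simp; linarith
    simp only [h.functional_equation s hs, h'.functional_equation s hs,
      gammaFactor_append h.Q_pos h'.Q_pos, mul_inv,
      LSeries_convolution' (h.summable _ hw) (h'.summable _ hw), map_mul, pow_add]
    ring

theorem convolution_prime_pow (a b : ℕ → ℂ) {p : ℕ} (hp : p.Prime) (k : ℕ) :
    (a ⍟ b) (p ^ k) = ∑ i ∈ Finset.range (k + 1), a (p ^ i) * b (p ^ (k - i)) := by
  rw [LSeries.convolution_def]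
  show ∑ q ∈ (p ^ k).divisorsAntidiagonal, a q.1 * b q.2 = _
  rw [Nat.sum_divisorsAntidiagonal (fun x y => a x * b y), Nat.sum_divisors_prime_pow hp]
  exact Finset.sum_congr rfl fun i hi => by
    rw [Nat.pow_div (Nat.lt_succ_iff.1 (Finset.mem_range.1 hi)) hp.pos]

theorem euler_mul (h : HasEulerProduct a) (h' : HasEulerProduct b) :
    HasEulerProduct (a ⍟ b) := by
  have hmult : ∀ {c : ℕ → ℂ}, HasEulerProduct c → (toArithmeticFunction c).IsMultiplicative :=
    fun {c} hc => ArithmeticFunction.IsMultiplicative.iff_ne_zero.2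
      ⟨by simp [toArithmeticFunction, hc.map_one], fun {k n} hk hn hkn => by
        simp [toArithmeticFunction, hk, hn, hc.map_mul k n hkn]⟩
  have hM := (hmult h).mul (hmult h')
  refine ⟨hM.map_one, fun k n hkn => hM.map_mul_of_coprime hkn, ?_⟩
  obtain ⟨θ, hθ, hl⟩ := h.local_factors
  obtain ⟨θ', hθ', hl'⟩ := h'.local_factors
  refine ⟨max θ θ', max_lt hθ hθ', fun p hp X hX => ?_⟩
  obtain ⟨u, hu, hsu⟩ := hl.mono (le_max_left _ θ') p hp X hX
  obtain ⟨v, hv, hsv⟩ := hl'.mono (le_max_right θ _) p hp X hX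
  refine ⟨u * v, mul_ne_zero hu hv, ?_⟩
  have := hasSum_sum_range_mul_of_summable_norm hsu.summable.norm hsv.summable.norm
  rw [hsu.tsum_eq, hsv.tsum_eq] at this
  refine this.congr_fun fun k => ?_
  rw [convolution_prime_pow a b hp, Finset.sum_mul]
  refine Finset.sum_congr rfl fun i hi => ?_
  rw [show X ^ k = X ^ i * X ^ (k - i) by
    rw [← pow_add, Nat.add_sub_cancel' (Nat.lt_succ_iff.1 (Finset.mem_range.1 hi))]]
  ring

theorem HasDegree.mul (h : HasDegree a d) (h' : HasDegree b e) : HasDegree (a ⍟ b) (d + e) := by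
  obtain ⟨he, m, E, r, lam, mu, Q, omega, hf, rfl⟩ := h
  obtain ⟨he', m', E', r', lam', mu', Q', omega', hf', rfl⟩ := h'
  refine ⟨euler_mul he he', _, _, _, _, _, _, _, fe_mul hf hf', ?_⟩
  simp [degree, Fin.sum_univ_add, mul_add]

theorem conductor_append :
    conductor (Fin.append lam lam') (Q * Q') = conductor lam Q * conductor lam' Q' := by
  simp only [conductor, degree, Fin.sum_univ_add, Fin.prod_univ_add, Fin.append_left,
    Fin.append_right, mul_add, Real.rpow_add Real.two_pi_pos, mul_pow]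
  ring

theorem abscissa_lt_top (h : HasDegree a d) : LSeries.abscissaOfAbsConv a < ⊤ :=
  (LSeries.abscissaOfAbsConv_le_of_forall_lt_LSeriesSummable (x := 1) fun y hy =>
    h.summable (by simpa using hy)).trans_lt (EReal.coe_lt_top 1)

/-- The product of the functions is the convolution of the coefficients. -/
theorem eq_convolution {c : ℕ → ℂ} {f : ℝ} (h : HasDegree a d) (hb : HasDegree b e)
    (hc : HasDegree c f) (hL : ∀ s : ℂ, 1 < s.re → LSeries a s = LSeries b s * LSeries c s)
    {n : ℕ} (hn : n ≠ 0) : a n = (b ⍟ c) n := by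
  refine LSeries.eq_of_LSeries_eventually_eq (abscissa_lt_top h) (abscissa_lt_top (hb.mul hc))
    ?_ hn
  filter_upwards [eventually_gt_atTop 1] with x hx
  have hx' : 1 < (x : ℂ).re := by simpa using hx
  rw [hL _ hx', LSeries_convolution' (hb.summable hx') (hc.summable hx')]

end FA.SelbergStructure

end
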