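import Fermat.Agent.DegreeOne.Ratio

/-!
# The quotient of the Gamma factors in any degree

On `re s = σ`, as `t → ∞`, it is `K t^(d (1/2 - σ)) exp (-i (d t log t + κ t - τ log t)) (1 + o 1)`,
and that determines `d`, `κ` and `τ`.
-/

set_option autoImplicit false

noncomputable section

open Complex Filter Topology
open scoped Real ComplexConjugate
open FA.DegreeGap (pt degree)
open FA.DegreeOne (reflRatio shiftT factorExp tendsto_factor)

namespace FA.SelbergStructure

variable {r : ℕ} {lam : Fin r → ℝ} {mu : Fin r → ℂ} {Q : ℝ}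

/-- The frequency. -/
def rateD (lam : Fin r → ℝ) (Q : ℝ) : ℝ :=
  2 * Real.log Q + 2 * (∑ j, lam j * Real.log (lam j)) - degree lam

/-- `d (1/2 - σ) log t - i (d t log t + κ t - τ log t)`, negated. -/
def normExp (d κ τ σ t : ℝ) : ℂ :=
  ((-(d * (1 / 2 - σ)) * Real.log t : ℝ) : ℂ) +
    ((d * (t * Real.log t) + κ * t - τ * Real.log t : ℝ) : ℂ) * I

theorem tendsto_reflRatio (hlam : ∀ j, 0 < lam j) (hQ : 0 < Q) (σ : ℝ) :
    ∃ K : ℂ, K ≠ 0 ∧ Tendsto (fun t : ℝ => reflRatio lam mu Q (pt σ t) *
      cexp (normExp (degree lam) (rateD lam Q) (shiftT mu) σ t)) atTop (𝓝 K) := by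
  set c₀ : ℂ := (((1 - 2 * σ) * Real.log Q + ∑ j, lam j * (1 - 2 * σ) * Real.log (lam j) : ℝ) : ℂ)
    + ((∑ j, (-(lam j + 2 * (mu j).re - 1) * (π / 2) - 2 * (mu j).im * Real.log (lam j)) : ℝ) : ℂ) *
      I with hc₀
  refine ⟨cexp c₀, Complex.exp_ne_zero _, ?_⟩
  have h := tendsto_finsetProd (Finset.univ : Finset (Fin r))
    (fun j _ => tendsto_factor (hlam j) (mu j) σ)
  rw [Finset.prod_const_one] at h
  have h' := h.mul_const (cexp c₀)
  rw [one_mul] at h'
  refine h'.congr' ?_
  filter_upwards [eventually_gt_atTop 0] with t ht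
  have hQ' : (Q : ℂ) ≠ 0 := ofReal_ne_zero.2 hQ.ne'
  rw [reflRatio, Finset.prod_mul_distrib, ← Complex.exp_sum, cpow_def_of_ne_zero hQ',
    ← ofReal_log hQ.le, pt]
  have key : c₀ + (∑ j, -factorExp (lam j) (mu j) σ t) =
      (Real.log Q : ℂ) * (1 - 2 * ((σ : ℂ) + t * I)) +
        normExp (degree lam) (rateD lam Q) (shiftT mu) σ t := by
    rw [hc₀, normExp]
    apply Complex.ext
    · simp only [add_re, neg_re, Complex.re_sum, mul_re, sub_re, ofReal_re, ofReal_im, I_re, I_im,
        factorExp, one_re, re_ofNat, im_ofNat, mul_im, sub_im, add_im, one_im, mul_zero, mul_one,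
        zero_mul, sub_zero, add_zero, zero_sub, zero_add, Finset.sum_neg_distrib]
      rw [Finset.sum_congr rfl (fun j _ =>
        show lam j * (1 - 2 * σ) * (Real.log t + Real.log (lam j))
        = lam j * ((1 - 2 * σ) * Real.log t) + lam j * (1 - 2 * σ) * Real.log (lam j) by ring),
        Finset.sum_add_distrib, ← Finset.sum_mul, degree]
      ring
    · simp only [add_im, neg_im, Complex.im_sum, mul_im, sub_im, ofReal_re, ofReal_im, I_re, I_im,
        factorExp, one_im, re_ofNat, im_ofNat, mul_re, sub_re, add_re, one_re, mul_zero, mul_one,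
        zero_mul, sub_zero, add_zero, zero_sub, zero_add, Finset.sum_neg_distrib]
      rw [Finset.sum_congr rfl (fun j _ => show -(lam j + 2 * (mu j).re - 1) * (π / 2) -
        2 * (lam j * t * Real.log t + lam j * (Real.log (lam j) - 1) * t +
          (mu j).im * (Real.log t + Real.log (lam j))) =
        (-(lam j + 2 * (mu j).re - 1) * (π / 2) - 2 * (mu j).im * Real.log (lam j)) -
          (lam j * (2 * t * Real.log t - 2 * t) + lam j * Real.log (lam j) * (2 * t) +
            (mu j).im * (2 * Real.log t)) by ring)]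
      simp only [Finset.sum_sub_distrib, Finset.sum_add_distrib, ← Finset.sum_mul, rateD, degree,
        shiftT]
      ring
  simp only [Finset.prod_mul_distrib]
  generalize (∏ j, conj (Complex.Gamma ((lam j : ℂ) * (1 - conj ((σ : ℂ) + t * I)) + mu j))) = P
  generalize (∏ j, (Complex.Gamma ((lam j : ℂ) * ((σ : ℂ) + t * I) + mu j))⁻¹) = P'
  calc _ = P * P' * (cexp c₀ * cexp (∑ j, -factorExp (lam j) (mu j) σ t)) := by ring
    _ = _ := by
      rw [← Complex.exp_add, key, Complex.exp_add]
      ring

theorem eq_zero_of_tendsto_log {a l : ℝ}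
    (h : Tendsto (fun t : ℝ => a * Real.log t) atTop (𝓝 l)) : a = 0 := by
  rcases lt_trichotomy a 0 with ha | ha | ha
  · exact absurd h (not_tendsto_nhds_of_tendsto_atBot
      (Real.tendsto_log_atTop.const_mul_atTop_of_neg ha) l)
  · exact ha
  · exact absurd h (not_tendsto_nhds_of_tendsto_atTop (Real.tendsto_log_atTop.const_mul_atTop ha) l)

theorem eq_zero_of_tendsto_phase {a b : ℝ} {c : ℂ} (hc : c ≠ 0)
    (h : Tendsto (fun t : ℝ => cexp (((a * t + b * Real.log t : ℝ) : ℂ) * I)) atTop (𝓝 c)) :
    a = 0 ∧ b = 0 := by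
  set f : ℝ → ℂ := fun t => cexp (((a * t + b * Real.log t : ℝ) : ℂ) * I)
  have hq : ∀ g : ℝ → ℝ, Tendsto g atTop atTop →
      Tendsto (fun t => f (g t) / f t) atTop (𝓝 1) := fun g hg => by
    simpa [div_self hc, Pi.div_def, Function.comp_def] using (h.comp hg).div h hc
  have ha : a = 0 := by
    by_contra ha
    have h1 := hq (fun t => t + π / a) (tendsto_atTop_add_const_right _ _ tendsto_id)
    have h2 : Tendsto (fun t => f (t + π / a) / f t) atTop (𝓝 (-1)) := by
      have h3 : Tendsto (fun t : ℝ => Real.log (t + π / a) - Real.log t) atTop (𝓝 0) := by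
        have h4 : Tendsto (fun t : ℝ => Real.log (1 + π / a * t⁻¹)) atTop (𝓝 0) := by
          have h5 := ((tendsto_inv_atTop_zero (𝕜 := ℝ)).const_mul (π / a)).const_add 1
          rw [mul_zero, add_zero] at h5
          simpa [Function.comp_def] using (Real.continuousAt_log one_ne_zero).tendsto.comp h5
        refine h4.congr' ?_
        filter_upwards [eventually_gt_atTop 0, eventually_gt_atTop (-(π / a))] with t ht ht'
        rw [show 1 + π / a * t⁻¹ = (t + π / a) / t by field_simp,
          Real.log_div (by linarith) ht.ne']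
      have h6 := (((((Complex.continuous_ofReal.tendsto _).comp (h3.const_mul b)).mul_const I).cexp
        ).mul_const (cexp ((π : ℂ) * I)))
      rw [mul_zero, ofReal_zero, zero_mul, Complex.exp_zero, one_mul, Complex.exp_pi_mul_I] at h6
      refine h6.congr fun t => ?_
      simp only [Function.comp_apply, f]
      rw [← Complex.exp_pi_mul_I, ← Complex.exp_add, ← Complex.exp_sub]
      congr 1
      have ha' : (a : ℂ) ≠ 0 := ofReal_ne_zero.2 ha
      push_cast
      field_simp
      ring
    have := tendsto_nhds_unique h1 h2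
    norm_num at this
  refine ⟨ha, ?_⟩
  by_contra hb
  have h1 := hq (fun t => Real.exp (π / b) * t) (tendsto_id.const_mul_atTop (Real.exp_pos _))
  have h2 : Tendsto (fun t => f (Real.exp (π / b) * t) / f t) atTop (𝓝 (-1)) := by
    refine tendsto_const_nhds.congr' ?_
    filter_upwards [eventually_gt_atTop 0] with t ht
    simp only [f, ha, zero_mul, zero_add]
    rw [← Complex.exp_sub, Real.log_mul (Real.exp_pos _).ne' ht.ne', Real.log_exp,
      ← Complex.exp_pi_mul_I]
    congr 1
    have hb' : (b : ℂ) ≠ 0 := ofReal_ne_zero.2 hb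
    push_cast
    field_simp
    ring
  have := tendsto_nhds_unique h1 h2
  norm_num at this

/-- The asymptotic determines its exponents. -/
theorem eq_of_tendsto {R : ℝ → ℂ} {d d' κ κ' τ τ' σ : ℝ} (hσ : σ ≠ 1 / 2) {K K' : ℂ} (hK : K ≠ 0)
    (hK' : K' ≠ 0) (h : Tendsto (fun t => R t * cexp (normExp d κ τ σ t)) atTop (𝓝 K))
    (h' : Tendsto (fun t => R t * cexp (normExp d' κ' τ' σ t)) atTop (𝓝 K')) :
    d = d' ∧ κ = κ' ∧ τ = τ' := by
  have hlim : Tendsto (fun t => cexp (normExp d' κ' τ' σ t - normExp d κ τ σ t)) atTop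
      (𝓝 (K' / K)) := by
    refine (h'.div h hK).congr' ?_
    filter_upwards [h.eventually_ne hK] with t ht
    rw [Pi.div_apply, mul_div_mul_left _ _ (left_ne_zero_of_mul ht), Complex.exp_sub]
  have hre : ∀ t, (normExp d' κ' τ' σ t - normExp d κ τ σ t).re =
      (d - d') * (1 / 2 - σ) * Real.log t := fun t => by simp [normExp]; ring
  have hpos : (0 : ℝ) < ‖K' / K‖ := norm_pos_iff.2 (div_ne_zero hK' hK)
  have hd : d = d' := by
    have h1 := (Real.continuousAt_log hpos.ne').tendsto.comp hlim.norm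
    have h2 := eq_zero_of_tendsto_log (h1.congr fun t => by
      rw [Function.comp_apply, Complex.norm_exp, Real.log_exp, hre])
    rcases mul_eq_zero.1 h2 with h3 | h3
    · linarith
    · exact absurd (by linarith) hσ
  subst hd
  have h3 := eq_zero_of_tendsto_phase (a := κ' - κ) (b := τ - τ') (div_ne_zero hK' hK)
    (hlim.congr fun t => by
      congr 1
      simp only [normExp]
      push_cast
      ring)
  exact ⟨rfl, by linarith [h3.1], by linarith [h3.2]⟩

end FA.SelbergStructure

end
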