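import Fermat.Agent.SelbergStructure.Class

/-!
# Factorisation into primitive elements
-/

set_option autoImplicit false

noncomputable section

open Complex
open scoped LSeries.notation

namespace FA.SelbergStructure

variable {a : ℕ → ℂ} {d : ℝ}

/-- Not `1`, and not the product of two elements other than `1`. -/
def IsPrimitive (a : ℕ → ℂ) : Prop :=
  (∃ d, HasDegree a d) ∧ ¬ IsTrivial a ∧ ∀ (b c : ℕ → ℂ) (e f : ℝ), HasDegree b e → HasDegree c f →
    (∀ s : ℂ, 1 < s.re → LSeries a s = LSeries b s * LSeries c s) → IsTrivial b ∨ IsTrivial c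

theorem degree_of_product {b c : ℕ → ℂ} {e f : ℝ} (h : HasDegree a d) (hb : HasDegree b e)
    (hc : HasDegree c f) (hL : ∀ s : ℂ, 1 < s.re → LSeries a s = LSeries b s * LSeries c s) :
    d = e + f :=
  (h.congr fun _ hn => eq_convolution h hb hc hL hn).unique (hb.mul hc)

theorem isPrimitive_of_lt_two (h : HasDegree a d) (ht : ¬ IsTrivial a) (hd : d < 2) :
    IsPrimitive a := by
  refine ⟨⟨d, h⟩, ht, fun b c e f hb hc hL => ?_⟩
  by_contra hno
  push Not at hno
  linarith [degree_of_product h hb hc hL, hb.one_le hno.1, hc.one_le hno.2]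

/-- **Every element is a product of at most `d` primitive ones.** -/
theorem exists_factorization (h : HasDegree a d) :
    ∃ (k : ℕ) (f : Fin k → ℕ → ℂ) (e : Fin k → ℝ),
      (∀ i, IsPrimitive (f i) ∧ HasDegree (f i) (e i) ∧ 1 ≤ e i) ∧ ∑ i, e i = d ∧ (k : ℝ) ≤ d ∧
        ∀ s : ℂ, 1 < s.re → LSeries a s = ∏ i, LSeries (f i) s := by
  obtain ⟨N, hN⟩ := exists_nat_gt d
  induction N generalizing a d with
  | zero => exact absurd (h.nonneg.trans_lt hN) (by simp)
  | succ N ih =>
    by_cases ht : IsTrivial a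
    · have h0 := h.eq_zero_iff.2 ht
      exact ⟨0, Fin.elim0, Fin.elim0, fun i => i.elim0, by simp [h0], by simp [h0],
        fun s _ => by simp [eq_one_of_trivial h.map_one ht]⟩
    by_cases hp : IsPrimitive a
    · exact ⟨1, fun _ => a, fun _ => d, fun _ => ⟨hp, h, h.one_le ht⟩, by simp,
        by simpa using h.one_le ht, fun s _ => by simp⟩
    obtain ⟨b, c, u, v, hb, hc, hL, hbt, hct⟩ : ∃ (b c : ℕ → ℂ) (u v : ℝ), HasDegree b u ∧
        HasDegree c v ∧ (∀ s : ℂ, 1 < s.re → LSeries a s = LSeries b s * LSeries c s) ∧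
          ¬ IsTrivial b ∧ ¬ IsTrivial c := by
      by_contra hno
      refine hp ⟨⟨d, h⟩, ht, fun b c u v hb hc hL => ?_⟩
      by_contra hno'
      push Not at hno'
      exact hno ⟨b, c, u, v, hb, hc, hL, hno'.1, hno'.2⟩
    have hduv := degree_of_product h hb hc hL
    push_cast at hN
    have := hb.one_le hbt
    have := hc.one_le hct
    obtain ⟨k, f, e, hf, hsum, hk, hfL⟩ := ih hb (by linarith)
    obtain ⟨l, g, e', hg, hsum', hl, hgL⟩ := ih hc (by linarith)
    refine ⟨k + l, Fin.append f g, Fin.append e e', Fin.addCases (fun i => by simpa using hf i)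
      (fun i => by simpa using hg i), ?_, ?_, fun s hs => ?_⟩
    · simp [Fin.sum_univ_add, hsum, hsum', hduv]
    · push_cast
      linarith
    · simp [Fin.prod_univ_add, hL s hs, hfL s hs, hgL s hs]

end FA.SelbergStructure

end
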