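import Fermat.Agent.SelbergStructure.Asymptotic
import Fermat.Agent.DegreeOne.Periodic
import Fermat.Agent.DegreeGap.Main

/-!
# The invariants of a functional equation

Two functional equations of one nonzero series have the same quotient of Gamma factors up to a
constant on `re s = -1/4`, so the same degree, conductor and shift.
-/

set_option autoImplicit false

noncomputable section

open Complex Filter Topology
open scoped Real ComplexConjugate
open FA.DegreeGap (HasFunctionalEquation degree pt pt_re pt_im continuous_pt tendsto_mean_line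
  one_sub_conj_pt)
open FA.DegreeOne (reflRatio rateK shiftT conj_inv_eq continuous_reflRatio_line
  continuous_series_line two_pi_exp_rateK)

namespace FA.SelbergStructure

variable {a : ℕ → ℂ} {m : ℕ} {E : ℂ → ℂ} {r : ℕ} {lam : Fin r → ℝ} {mu : Fin r → ℂ} {Q : ℝ}
  {omega : ℂ}

/-- The conductor. -/
def conductor (lam : Fin r → ℝ) (Q : ℝ) : ℝ :=
  (2 * π) ^ degree lam * Q ^ 2 * ∏ j, lam j ^ (2 * lam j)

theorem conductor_eq (hlam : ∀ j, 0 < lam j) (hQ : 0 < Q) :
    conductor lam Q = (2 * π) ^ degree lam * Real.exp (rateD lam Q + degree lam) := by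
  have h := two_pi_exp_rateK hlam hQ
  rw [mul_assoc (2 * π)] at h
  rw [conductor, mul_assoc, ← mul_left_cancel₀ (mul_ne_zero two_ne_zero Real.pi_ne_zero) h]
  simp [rateD, rateK]

theorem eq_zero_on_interval (h : HasFunctionalEquation a m E lam mu Q omega) {σ : ℝ} (hσ : 1 < σ)
    {t₀ : ℝ} (h0 : ∀ᶠ t in 𝓝 t₀, LSeries a (pt σ t) = 0) {n : ℕ} (hn : n ≠ 0) : a n = 0 := by
  have hre : ∀ t, 1 < (pt σ t).re := fun t => by rwa [pt_re]
  have hev : ∀ᶠ t in 𝓝[≠] t₀, E (pt σ t) = (fun _ => (0 : ℂ)) (pt σ t) :=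
    (h0.filter_mono nhdsWithin_le_nhds).mono fun t ht => by rw [h.eq_series _ (hre t), ht, mul_zero]
  have hmap : Tendsto (pt σ) (𝓝[≠] t₀) (𝓝[≠] (pt σ t₀)) :=
    tendsto_nhdsWithin_iff.2 ⟨((continuous_pt σ).tendsto t₀).mono_left nhdsWithin_le_nhds,
      eventually_nhdsWithin_of_forall fun t ht e => ht (by
        have := congrArg Complex.im e
        rwa [pt_im, pt_im] at this)⟩
  have hE : E = fun _ => 0 := AnalyticOnNhd.eq_of_frequently_eq (z₀ := pt σ t₀)
    (fun z _ => h.differentiable.analyticAt z) analyticOnNhd_const (hmap.frequently hev.frequently)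
  have hL : ∀ t, LSeries a (pt σ t) = 0 := fun t => by
    have h1 := (congrFun hE (pt σ t)).symm.trans (h.eq_series _ (hre t))
    refine (mul_eq_zero.1 h1.symm).resolve_left (pow_ne_zero m fun e => ?_)
    have h2 := hre t
    rw [sub_eq_zero] at e
    rw [e, one_re] at h2
    exact lt_irrefl _ h2
  have hmean := tendsto_mean_line (h.summable (σ : ℂ) (by simpa using hσ)) hn
  simp only [hL, zero_mul, intervalIntegral.integral_zero, mul_zero] at hmean
  have h3 := tendsto_nhds_unique hmean tendsto_const_nhds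
  rw [LSeries.term_of_ne_zero hn, div_eq_zero_iff] at h3
  exact h3.resolve_right (cpow_ne_zero_iff.2 (Or.inl (Nat.cast_ne_zero.2 hn)))

/-- **The invariants.** -/
theorem invariants_eq {m' : ℕ} {E' : ℂ → ℂ} {r' : ℕ} {lam' : Fin r' → ℝ} {mu' : Fin r' → ℂ}
    {Q' : ℝ} {omega' : ℂ} (h : HasFunctionalEquation a m E lam mu Q omega)
    (h' : HasFunctionalEquation a m' E' lam' mu' Q' omega') {n : ℕ} (hn : n ≠ 0) (ha : a n ≠ 0) :
    degree lam = degree lam' ∧ conductor lam Q = conductor lam' Q' ∧
      2 * (∑ j, (mu j).im) = 2 * ∑ j, (mu' j).im := by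
  set σ : ℝ := -(1 / 4) with hσ
  have hσ0 : σ < 0 := by norm_num [hσ]
  have hid : ∀ s : ℂ, (s - 1) ^ m' * E s = (s - 1) ^ m * E' s := fun s => by
    refine congrFun (AnalyticOnNhd.eq_of_eventuallyEq (𝕜 := ℂ) (z₀ := (2 : ℂ))
      (f := fun z => (z - 1) ^ m' * E z) (g := fun z => (z - 1) ^ m * E' z)
      (fun z _ => ((analyticAt_id.sub analyticAt_const).pow m').mul
        (h.differentiable.analyticAt z))
      (fun z _ => ((analyticAt_id.sub analyticAt_const).pow m).mul
        (h'.differentiable.analyticAt z)) ?_) s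
    refine eventually_of_mem ((isOpen_lt continuous_const Complex.continuous_re).mem_nhds
      (show (2 : ℂ) ∈ {z : ℂ | 1 < z.re} by simp)) fun z hz => ?_
    simp only [h.eq_series z hz, h'.eq_series z hz]
    ring
  set f : ℝ → ℂ := fun t =>
    omega * reflRatio lam mu Q (pt σ t) - omega' * reflRatio lam' mu' Q' (pt σ t) with hf
  have hprod : ∀ t, f t * conj (LSeries a (pt (1 - σ) t)) = 0 := fun t => by
    have hs : (pt σ t).re < 0 := by rwa [pt_re]
    have hne : (pt σ t - 1) ^ (m + m') ≠ 0 := pow_ne_zero _ fun e => by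
      rw [sub_eq_zero] at e
      rw [e, one_re] at hs
      linarith
    have h1 := hid (pt σ t)
    rw [h.functional_equation _ hs, h'.functional_equation _ hs, one_sub_conj_pt, map_mul,
      map_mul] at h1
    have e1 := conj_inv_eq (lam := lam) (mu := mu) h.Q_pos (pt σ t)
    have e2 := conj_inv_eq (lam := lam') (mu := mu') h'.Q_pos (pt σ t)
    rw [one_sub_conj_pt] at e1 e2
    refine mul_left_cancel₀ hne ?_
    simp only [hf, ← e1, ← e2, mul_zero]
    linear_combination h1
  have hf0 : ∀ t, f t = 0 := fun t => by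
    by_contra hne
    have hc : Continuous f := ((continuous_reflRatio_line h.lam_pos h.mu_re h.Q_pos hσ0).const_mul
      omega).sub ((continuous_reflRatio_line h'.lam_pos h'.mu_re h'.Q_pos hσ0).const_mul omega')
    refine ha (eq_zero_on_interval h (σ := 1 - σ) (by linarith) (t₀ := t)
      ((hc.continuousAt.eventually_ne hne).mono fun u hu => ?_) hn)
    exact (map_eq_zero _).1 ((mul_eq_zero.1 (hprod u)).resolve_left hu)
  have hω : omega ≠ 0 := norm_ne_zero_iff.1 (by rw [h.norm_omega]; exact one_ne_zero)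
  have hω' : omega' ≠ 0 := norm_ne_zero_iff.1 (by rw [h'.norm_omega]; exact one_ne_zero)
  obtain ⟨K, hK, hlim⟩ := tendsto_reflRatio (mu := mu) h.lam_pos h.Q_pos σ
  obtain ⟨K', hK', hlim'⟩ := tendsto_reflRatio (mu := mu') h'.lam_pos h'.Q_pos σ
  obtain ⟨h1, h2, h3⟩ := eq_of_tendsto (R := fun t => omega * reflRatio lam mu Q (pt σ t))
    (σ := σ) (by linarith) (mul_ne_zero hω hK) (mul_ne_zero hω' hK')
    ((hlim.const_mul omega).congr fun t => by ring)
    ((hlim'.const_mul omega').congr fun t => by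
      rw [← mul_assoc, ← sub_eq_zero.1 (hf0 t)])
  refine ⟨h1, ?_, ?_⟩
  · rw [conductor_eq h.lam_pos h.Q_pos, conductor_eq h'.lam_pos h'.Q_pos, h1, h2]
  · simp only [shiftT] at h3
    linarith

end FA.SelbergStructure

end
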